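import Mathlib
import Fermat.Prelude.Def_FLTPrelim_Ramification
import Fermat.Prelude.Def_EllipticCurve_FrobeniusTrace

/-!
# S15, abstract Eisenstein descent: definitions

`J` is an abelian group with an action of `GQ = Gal(ℚ̄/ℚ)`.  `Raw J p ℓ` collects the raw data of
blueprint v2 (report stmt = S15, kind = plan, part 1/3).  The abstract theorem is `Raw J p ℓ → False`.
-/

set_option autoImplicit false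

namespace Fermat.Agent.S15

/-- `ℚ̄` -/
abbrev Qb : Type := AlgebraicClosure ℚ
/-- `Gal(ℚ̄/ℚ)` -/
abbrev GQ : Type := Qb ≃ₐ[ℚ] Qb

/-- `σ` acts on the `ℓ ^ r`-th roots of unity by `ζ ↦ ζ ^ k`. -/
def IsCyc (ℓ r : ℕ) (σ : GQ) (k : ℕ) : Prop := ∀ ζ : Qb, ζ ^ (ℓ ^ r) = 1 → σ ζ = ζ ^ k

section

variable (J : Type) [AddCommGroup J]

/-- `J[ℓ ^ r]` -/
def tor (ℓ r : ℕ) : AddSubgroup J where
  carrier := {x | (ℓ ^ r) • x = 0}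
  zero_mem' := smul_zero _
  add_mem' := by
    intro a b ha hb
    show (ℓ ^ r) • (a + b) = 0
    rw [smul_add, show (ℓ ^ r) • a = 0 from ha, show (ℓ ^ r) • b = 0 from hb, add_zero]
  neg_mem' := by
    intro a ha
    show (ℓ ^ r) • (-a) = 0
    rw [smul_neg, show (ℓ ^ r) • a = 0 from ha, neg_zero]

/-- `J[ℓ ^ ∞]` -/
def torInf (ℓ : ℕ) : AddSubgroup J where
  carrier := {x | ∃ r : ℕ, (ℓ ^ r) • x = 0}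
  zero_mem' := ⟨0, smul_zero _⟩
  add_mem' := by
    rintro a b ⟨r, ha⟩ ⟨s, hb⟩
    refine ⟨r + s, ?_⟩
    have h1 : (ℓ ^ (r + s)) • a = 0 := by rw [pow_add, mul_comm, mul_smul, ha, smul_zero]
    have h2 : (ℓ ^ (r + s)) • b = 0 := by rw [pow_add, mul_smul, hb, smul_zero]
    rw [smul_add, h1, h2, add_zero]
  neg_mem' := by
    rintro a ⟨r, ha⟩
    exact ⟨r, by rw [smul_neg, ha, neg_zero]⟩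

variable {J}

theorem mem_tor {ℓ r : ℕ} {x : J} : x ∈ tor J ℓ r ↔ (ℓ ^ r) • x = 0 := Iff.rfl
theorem mem_torInf {ℓ : ℕ} {x : J} : x ∈ torInf J ℓ ↔ ∃ r : ℕ, (ℓ ^ r) • x = 0 := Iff.rfl

end

/-- The raw data of the abstract descent.  `p` = level, `ℓ` = descent prime. -/
structure Raw (J : Type) [AddCommGroup J] [DistribMulAction GQ J] (p ℓ : ℕ) where
  hp : p.Prime
  hℓ : ℓ.Prime
  hℓp : ℓ ≠ p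
  /-- `ℓ ∣ p - 1` (so `μ_ℓ ⊆ ℚ_p`; true for the descent prime) -/
  hdvd : ℓ ∣ p - 1
  /- (R0) -/
  smooth : ∀ x : J, ∃ L : IntermediateField ℚ Qb, FiniteDimensional ℚ L ∧
    ∀ σ : GQ, (∀ a ∈ L, σ a = a) → σ • x = x
  div : ∀ x : J, ∃ z : J, ℓ • z = x
  fin : {x : J | ℓ • x = 0}.Finite
  /-- (CH) `t_σ = σ + χ(σ) σ⁻¹` commutes with `GQ` on `J[ℓ ^ r]`. -/
  ch : ∀ (r : ℕ) (σ : GQ) (k : ℕ), IsCyc ℓ r σ k → ∀ (τ : GQ) (x : J), (ℓ ^ r) • x = 0 →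
    τ • (σ • x + k • σ⁻¹ • x) = σ • τ • x + k • σ⁻¹ • τ • x
  /-- (NE) -/
  ne : ∀ q : ℕ, q.Prime → q ≠ p → q ≠ ℓ → ∀ A : ValuationSubring Qb, A.LiesOverPrime q →
    ∀ φ : GQ, A.IsFrobeniusAt φ q →
      {x : J | x ∈ torInf J ℓ ∧ φ • x + q • φ⁻¹ • x = (1 + q) • x}.Finite
  /- (J1) kernels of reduction -/
  J1 : ValuationSubring Qb → AddSubgroup J
  J1_decomp : ∀ q : ℕ, q.Prime → q ≠ p → ∀ A : ValuationSubring Qb, A.LiesOverPrime q →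
    ∀ σ ∈ A.decompositionSubgroup ℚ, ∀ z ∈ J1 A, σ • z ∈ J1 A
  J1_inert : ∀ q : ℕ, q.Prime → q ≠ p → ∀ A : ValuationSubring Qb, A.LiesOverPrime q →
    ∀ σ ∈ A.inertiaSubgroupIn ℚ, ∀ z : J, σ • z - z ∈ J1 A
  J1_tor : ∀ q : ℕ, q.Prime → q ≠ p → q ≠ ℓ → ∀ A : ValuationSubring Qb, A.LiesOverPrime q →
    ∀ z ∈ J1 A, z ∈ torInf J ℓ → z = 0
  J1_fin : ∀ q : ℕ, q.Prime → q ≠ p → q ≠ ℓ → ∀ A : ValuationSubring Qb, A.LiesOverPrime q →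
    ∃ m : ℕ, 0 < m ∧ ∀ w : J, (∀ σ ∈ A.decompositionSubgroup ℚ, σ • w = w) → m • w ∈ J1 A
  /- (AT ℓ) -/
  Aℓ : ValuationSubring Qb
  hAℓ : Aℓ.LiesOverPrime ℓ
  /-- `T_ℓ` (only its values on `J[ℓ^∞]` matter) -/
  Tℓ : J → J
  Tℓ_mem : ∀ r x, (ℓ ^ r) • x = 0 → (ℓ ^ r) • Tℓ x = 0
  Tℓ_add : ∀ x ∈ torInf J ℓ, ∀ y ∈ torInf J ℓ, Tℓ (x + y) = Tℓ x + Tℓ y
  Tℓ_gal : ∀ (σ : GQ), ∀ x ∈ torInf J ℓ, Tℓ (σ • x) = σ • Tℓ x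
  Tℓ_J1 : ∀ x ∈ torInf J ℓ, x ∈ J1 Aℓ → Tℓ x ∈ J1 Aℓ
  t_J1 : ∀ (r : ℕ) (σ : GQ) (k : ℕ), IsCyc ℓ r σ k → ∀ x : J, (ℓ ^ r) • x = 0 → x ∈ J1 Aℓ →
    σ • x + k • σ⁻¹ • x ∈ J1 Aℓ
  es_ℓ : ∀ φ : GQ, Aℓ.IsFrobeniusAt φ ℓ → ∀ x ∈ torInf J ℓ,
    φ • φ • x - Tℓ (φ • x) + ℓ • x ∈ J1 Aℓ
  ne_ℓ : {x : J | x ∈ torInf J ℓ ∧ Tℓ x = (1 + ℓ) • x}.Finite
  ne_ℓ' : {x : J | x ∈ torInf J ℓ ∧ Tℓ x + (1 + ℓ) • x = 0}.Finite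
  /- (AT p) -/
  Ap : ValuationSubring Qb
  hAp : Ap.LiesOverPrime p
  W : AddSubgroup J
  W_le : W ≤ torInf J ℓ
  W_decomp : ∀ σ ∈ Ap.decompositionSubgroup ℚ, ∀ x ∈ W, σ • x ∈ W
  W_inert : ∀ σ ∈ Ap.inertiaSubgroupIn ℚ, ∀ z : J, σ • z - z ∈ torInf J ℓ → σ • z - z ∈ W
  W_fix : ∀ σ ∈ Ap.inertiaSubgroupIn ℚ, ∀ x ∈ W, σ • x = x
  W_frob : ∀ φ : GQ, Ap.IsFrobeniusAt φ p → ∀ x ∈ W, φ • φ • x = (p ^ 2) • x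
  /- (PT) -/
  y : J
  c : J
  y_fix : ∀ σ : GQ, σ • y = y
  c_fix : ∀ σ : GQ, σ • c = c
  c_tor : c ∈ torInf J ℓ
  c_Tℓ : Tℓ c = (1 + ℓ) • c
  c_not_mem : c ∉ J1 Aℓ
  q₀ : ℕ
  hq₀ : q₀.Prime
  hq₀p : q₀ ≠ p
  hq₀ℓ : q₀ ≠ ℓ
  A₀ : ValuationSubring Qb
  hA₀ : A₀.LiesOverPrime q₀
  y_mem : y ∈ J1 A₀
  ℓ' : ℕ
  hℓ' : ℓ'.Prime
  hℓ'p : ℓ' ≠ p
  hℓ'ℓ : ℓ' ≠ ℓ
  A' : ValuationSubring Qb
  hA' : A'.LiesOverPrime ℓ'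
  yc_mem : y + c ∈ J1 A'

/-- THE ABSTRACT THEOREM (to be proved by the modules ABS-V, ABS-A, ABS-B, ABS-C). -/
def AbsDescent : Prop :=
  ∀ (J : Type) [AddCommGroup J] [DistribMulAction GQ J] (p ℓ : ℕ), Raw J p ℓ → False

end Fermat.Agent.S15
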