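import Fermat.Agent.S15.Abs.Wire
import Fermat.Agent.EL.ValQ

/-!
# S15 / ABS : the decomposition group is topologically generated by inertia and a Frobenius element

`decompGen : DecompGen` (input (3) of `absDescent_of`).

Proof.  `κ` = residue field of `A`, algebraic over `𝔽_q`.  For every finite `T ⊆ κ` the element
`σ ∈ D_A` acts on `T` like a power `φ ^ k_T` (Galois theory of finite fields), so
`g_T = φ ^ (-k_T) σ` fixes `T` pointwise.  A limit `τ` of the `g_T` along an ultrafilter
(`Gal(ℚ̄/ℚ)` is compact) lies in the inertia group, and some `g_T` lies in `τ · Gal(ℚ̄/L)`.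
-/

set_option autoImplicit false

namespace Fermat.Agent.S15.Abs

open IsLocalRing Filter Topology
open scoped Pointwise

/-- automorphisms of an algebraic extension of `𝔽_q` are powers of Frobenius on finite subfields -/
theorem DecompGen_ff {q : ℕ} [Fact q.Prime] {κ : Type*} [Field κ] [Algebra (ZMod q) κ]
    (s : κ ≃ₐ[ZMod q] κ) (E : IntermediateField (ZMod q) κ) [FiniteDimensional (ZMod q) E] :
    ∃ k : ℕ, ∀ x ∈ E, s x = x ^ (q ^ k) := by
  haveI : Finite E := Module.finite_of_finite (ZMod q)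
  obtain ⟨n, hn⟩ := (FiniteField.bijective_frobeniusAlgEquivOfAlgebraic_pow (ZMod q) E).2
    (s.restrictNormal E)
  refine ⟨n, fun x hx => ?_⟩
  have h1 := AlgEquiv.restrictNormal_commutes s E ⟨x, hx⟩
  rw [← hn] at h1
  simp only [AlgEquiv.coe_pow, FiniteField.coe_frobeniusAlgEquivOfAlgebraic_iterate,
    ZMod.card] at h1
  simpa using h1.symm

theorem DecompGen_mem_inertiaSubgroupIn_iff (A : ValuationSubring Qb) (τ : GQ) :
    τ ∈ A.inertiaSubgroupIn ℚ ↔ τ • A = A ∧ ∀ a ∈ A, τ a - a ∈ A.nonunits := by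
  constructor
  · intro hτ
    obtain ⟨g, hg, rfl⟩ := Subgroup.mem_map.mp hτ
    refine ⟨g.2, fun a ha => ?_⟩
    have h1 : MulSemiringAction.toRingAut (A.decompositionSubgroup ℚ)
        (IsLocalRing.ResidueField A) g = 1 := MonoidHom.mem_ker.mp hg
    have h2 : g • IsLocalRing.residue A ⟨a, ha⟩ = IsLocalRing.residue A ⟨a, ha⟩ := by
      have := congrArg (fun f => f (IsLocalRing.residue A ⟨a, ha⟩)) h1
      simpa using this
    rw [← IsLocalRing.ResidueField.residue_smul, ← sub_eq_zero, ← map_sub,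
      IsLocalRing.residue_eq_zero_iff] at h2
    exact ValuationSubring.coe_mem_nonunits_iff.mpr h2
  · rintro ⟨h1, h2⟩
    refine Subgroup.mem_map.mpr ⟨⟨τ, h1⟩, ?_, rfl⟩
    refine MonoidHom.mem_ker.mpr ?_
    ext r
    obtain ⟨a, rfl⟩ := IsLocalRing.residue_surjective r
    change (⟨τ, h1⟩ : A.decompositionSubgroup ℚ) • IsLocalRing.residue A a = IsLocalRing.residue A a
    rw [← IsLocalRing.ResidueField.residue_smul, ← sub_eq_zero, ← map_sub,
      IsLocalRing.residue_eq_zero_iff]
    exact ValuationSubring.coe_mem_nonunits_iff.mp (h2 a a.2)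

theorem DecompGen_map_mem {A : ValuationSubring Qb} (d : A.decompositionSubgroup ℚ) {a : Qb}
    (ha : a ∈ A) : (d : GQ) a ∈ A := (d • (⟨a, ha⟩ : A)).2

/-- convergence in the Krull topology is pointwise eventual equality -/
theorem DecompGen_eventually_fix {ι : Type*} {F : Filter ι} {g : ι → GQ} {g₀ : GQ}
    (h : Tendsto g F (𝓝 g₀)) (L : IntermediateField ℚ Qb) [FiniteDimensional ℚ L] :
    ∀ᶠ i in F, g₀⁻¹ * g i ∈ L.fixingSubgroup := by
  have hU : IsOpen ((fun σ : GQ => g₀⁻¹ * σ) ⁻¹' (L.fixingSubgroup : Set GQ)) :=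
    (L.fixingSubgroup_isOpen).preimage (continuous_const_mul g₀⁻¹)
  have hg : g₀ ∈ ((fun σ : GQ => g₀⁻¹ * σ) ⁻¹' (L.fixingSubgroup : Set GQ)) := by
    show g₀⁻¹ * g₀ ∈ L.fixingSubgroup
    rw [inv_mul_cancel]; exact one_mem _
  exact h (hU.mem_nhds hg)

theorem DecompGen_eventually_eq {ι : Type*} {F : Filter ι} {g : ι → GQ} {g₀ : GQ}
    (h : Tendsto g F (𝓝 g₀)) (b : Qb) : ∀ᶠ i in F, g i b = g₀ b := by
  have hcl : IsAlgClosure ℚ Qb := ⟨inferInstance, AlgebraicClosure.isAlgebraic ℚ⟩
  have halg : Algebra.IsAlgebraic ℚ Qb := hcl.isAlgebraic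
  haveI : FiniteDimensional ℚ (IntermediateField.adjoin ℚ {b}) :=
    IntermediateField.adjoin.finiteDimensional (Algebra.IsIntegral.isIntegral b)
  filter_upwards [DecompGen_eventually_fix h (IntermediateField.adjoin ℚ {b})] with i hi
  have h1 := (IntermediateField.mem_fixingSubgroup_iff _ _).mp hi b
    (IntermediateField.mem_adjoin_simple_self ℚ b)
  have h2 : g₀⁻¹ (g i b) = b := h1
  have h3 := congrArg g₀ h2
  have h4 : g₀ (g₀⁻¹ ((g i) b)) = g i b := AlgEquiv.apply_symm_apply g₀ _
  rw [← h4, h3]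

theorem decompGen : DecompGen := by
  intro q hq A hA φ hφ L hL σ hσ
  classical
  have hcl : IsAlgClosure ℚ Qb := ⟨inferInstance, AlgebraicClosure.isAlgebraic ℚ⟩
  have hgal : IsGalois ℚ Qb := IsAlgClosure.isGalois ℚ Qb
  haveI : Fact q.Prime := ⟨hq⟩
  haveI := EL.charP_residueField hq hA
  letI : Algebra (ZMod q) (ResidueField A) := ZMod.algebra _ q
  haveI := EL.isAlgebraic_residueField hA
  set D := A.decompositionSubgroup ℚ with hD
  let sg : D := ⟨σ, hσ⟩
  let Φ : D := ⟨φ, hφ.mem_decompositionSubgroup⟩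
  -- the automorphism of the residue field
  let s : ResidueField A ≃ₐ[ZMod q] ResidueField A :=
    AlgEquiv.ofRingEquiv (f := MulSemiringAction.toRingEquiv D (ResidueField A) sg) (fun r =>
      RingHom.congr_fun (Subsingleton.elim
        (((MulSemiringAction.toRingEquiv D (ResidueField A) sg : ResidueField A ≃+* ResidueField A) :
          ResidueField A →+* ResidueField A).comp (algebraMap (ZMod q) (ResidueField A)))
        (algebraMap (ZMod q) (ResidueField A))) r)
  have hs : ∀ x, s x = sg • x := fun x => rfl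
  have h1 : ∀ T : Finset (ResidueField A), ∃ k : ℕ, ∀ x ∈ T, sg • x = x ^ (q ^ k) := by
    intro T
    haveI : FiniteDimensional (ZMod q) (IntermediateField.adjoin (ZMod q) (T : Set (ResidueField A))) :=
      IntermediateField.finiteDimensional_adjoin (fun x _ => Algebra.IsIntegral.isIntegral x)
    obtain ⟨k, hk⟩ := DecompGen_ff s (IntermediateField.adjoin (ZMod q) (T : Set (ResidueField A)))
    exact ⟨k, fun x hx => hk x (IntermediateField.subset_adjoin _ _ hx)⟩
  choose k hk using h1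
  have h2 : ∀ (n : ℕ) (x : ResidueField A), Φ ^ n • x = x ^ (q ^ n) := by
    intro n
    induction n with
    | zero => intro x; simp
    | succ n ih =>
      intro x
      rw [pow_succ, mul_smul, hφ.smul_residue_eq, ih, ← pow_mul, pow_succ, mul_comm]
  let g : Finset (ResidueField A) → D := fun T => (Φ ^ k T)⁻¹ * sg
  have hg : ∀ T, ∀ x ∈ T, g T • x = x := by
    intro T x hx
    show ((Φ ^ k T)⁻¹ * sg) • x = x
    rw [mul_smul, hk T x hx, ← h2, inv_smul_smul]
  -- the limit
  let F : Ultrafilter (Finset (ResidueField A)) := Ultrafilter.of atTop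
  have hF : (F : Filter (Finset (ResidueField A))) ≤ atTop := Ultrafilter.of_le atTop
  let G : Ultrafilter GQ := F.map (fun T => (g T : GQ))
  have hlim : Tendsto (fun T => (g T : GQ)) F (𝓝 G.lim) := G.le_nhds_lim
  set τ : GQ := G.lim with hτ
  have hτA : τ • A = A := by
    ext x
    rw [ValuationSubring.mem_pointwise_smul_iff_inv_smul_mem]
    constructor
    · intro hb
      obtain ⟨T, hT⟩ := (DecompGen_eventually_eq hlim (τ⁻¹ • x)).exists
      have h3 : τ (τ⁻¹ • x) = x := AlgEquiv.apply_symm_apply τ x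
      rw [h3] at hT
      rw [← hT]
      exact DecompGen_map_mem (g T) hb
    · intro hx
      obtain ⟨T, hT⟩ := (DecompGen_eventually_eq hlim (τ⁻¹ • x)).exists
      have h3 : τ (τ⁻¹ • x) = x := AlgEquiv.apply_symm_apply τ x
      rw [h3] at hT
      have h4 : τ⁻¹ • x = ((g T)⁻¹ : D).1 x := by
        conv_rhs => rw [← hT]
        exact (AlgEquiv.symm_apply_apply (g T : GQ) _).symm
      rw [h4]
      exact DecompGen_map_mem (g T)⁻¹ hx
  have hτI : τ ∈ A.inertiaSubgroupIn ℚ := by
    rw [DecompGen_mem_inertiaSubgroupIn_iff]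
    refine ⟨hτA, fun a ha => ?_⟩
    have e1 : ∀ᶠ T in (F : Filter (Finset (ResidueField A))), residue A ⟨a, ha⟩ ∈ T := by
      apply hF
      filter_upwards [eventually_ge_atTop {residue A ⟨a, ha⟩}] with T hT
      exact hT (Finset.mem_singleton_self _)
    obtain ⟨T, hT1, hT2⟩ := (e1.and (DecompGen_eventually_eq hlim a)).exists
    have h3 := hg T _ hT1
    rw [← IsLocalRing.ResidueField.residue_smul, ← sub_eq_zero, ← map_sub,
      IsLocalRing.residue_eq_zero_iff] at h3
    have h4 := ValuationSubring.coe_mem_nonunits_iff.mpr h3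
    rw [← hT2]
    exact h4
  obtain ⟨T, hT⟩ := (DecompGen_eventually_fix hlim L).exists
  refine ⟨k T, τ, τ⁻¹ * (g T : GQ), hτI, fun a ha => ?_, ?_⟩
  · exact (IntermediateField.mem_fixingSubgroup_iff _ _).mp hT a ha
  · have h5 : (g T : GQ) = (φ ^ k T)⁻¹ * σ := rfl
    rw [h5]
    group

end Fermat.Agent.S15.Abs
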