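/-
S15 / ABS: the assembly of the abstract descent `AbsDescent` from
* `T : Coh.ArithTower GQ ℓ` (S15-KUM), adapted to the raw data (`TowerFor`),
* `AOut R T` (output of ABS-A = S15-LAT): clean data on `𝔾 = G''`, the projection
  `π : J[ℓ^∞] → 𝔾` with divisible kernel `KK`, the comparison of the local conditions, `c ∉ KK`,
* the Selmer bound `Coh.Clean.main` (ABS-B = S15-COH),
* `C.absC` (ABS-C),
* `DecompGen`: a smooth vector fixed by inertia and by a Frobenius is fixed by the decomposition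
  group.
-/
import Fermat.Agent.S15.Abs.Defs
import Fermat.Agent.S15.Abs.C.Kummer
import Fermat.Agent.S15.Kum.Defs
import Fermat.Agent.Lib.Frobenius

set_option autoImplicit false

namespace Fermat.Agent.S15.Abs

open Fermat.Agent.S15.Coh Fermat.Agent.S15.Abs.C

variable {J : Type} [AddCommGroup J] [DistribMulAction GQ J] {p ℓ : ℕ}

/-- `T` is an arithmetic tower adapted to the raw data `R`. -/
structure TowerFor (R : Raw J p ℓ) (T : ArithTower GQ ℓ) : Prop where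
  Ip : T.Ip = R.Ap.inertiaSubgroupIn ℚ
  Il : T.Il = R.Aℓ.inertiaSubgroupIn ℚ
  U : T.U = Kum.unr p ℓ
  φ : R.Aℓ.IsFrobeniusAt T.φ ℓ
  χ : ∀ (r : ℕ) (σ : GQ), IsCyc ℓ r σ (T.χ r σ).val

/-- The output of ABS-A. -/
structure AOut (R : Raw J p ℓ) (T : ArithTower GQ ℓ) where
  𝔾 : Type
  [grp : AddCommGroup 𝔾]
  [act : DistribMulAction GQ 𝔾]
  clean : Clean T 𝔾
  link : Link GQ J ℓ 𝔾
  /-- `ℓ^c π(Gm) ⊆ G''^m`, `Gm = J1(A_ℓ) ∩ J[ℓ^∞]` -/
  atL : ∃ c : ℕ, ∀ x : torL ℓ J, x.1 ∈ R.J1 R.Aℓ → ℓ ^ c • link.π x ∈ clean.M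
  /-- `ℓ^c π(W) ⊆ W''` -/
  atP : ∃ c : ℕ, ∀ x : torL ℓ J, x.1 ∈ R.W → ℓ ^ c • link.π x ∈ clean.W
  /-- `KK ∩ G = G^b ⊆ Gm ⊆ J1(A_ℓ)` and `c ∈ G`, `c ∉ J1(A_ℓ)` -/
  c_not_mem : R.c ∉ link.KK

attribute [instance] AOut.grp AOut.act

/-- The decomposition group is topologically generated by inertia and a Frobenius element. -/
def DecompGen : Prop :=
  ∀ (q : ℕ), q.Prime → ∀ A : ValuationSubring Qb, A.LiesOverPrime q →
    ∀ φ : GQ, A.IsFrobeniusAt φ q → ∀ L : IntermediateField ℚ Qb, FiniteDimensional ℚ L →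
      ∀ σ ∈ A.decompositionSubgroup ℚ, ∃ (k : ℕ) (τ h : GQ), τ ∈ A.inertiaSubgroupIn ℚ ∧
        (∀ a ∈ L, h a = a) ∧ σ = φ ^ k * τ * h

/-- smooth vectors have locally constant orbit maps -/
theorem raw_cont (R : Raw J p ℓ) (z : J) : IsLocallyConstant (fun σ : GQ => σ • z) := by
  obtain ⟨L, hL, hfix⟩ := R.smooth z
  rw [IsLocallyConstant.iff_exists_open]
  intro σ₀
  refine ⟨(fun σ : GQ => σ₀⁻¹ * σ) ⁻¹' (L.fixingSubgroup : Set GQ), ?_, ?_, ?_⟩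
  · exact (L.fixingSubgroup_isOpen).preimage (continuous_const_mul σ₀⁻¹)
  · show σ₀⁻¹ * σ₀ ∈ L.fixingSubgroup
    rw [inv_mul_cancel]; exact one_mem _
  · intro σ hσ
    have h1 : σ₀⁻¹ * σ ∈ L.fixingSubgroup := hσ
    have h2 : (σ₀⁻¹ * σ) • z = z := by
      apply hfix
      intro a ha
      exact (IntermediateField.mem_fixingSubgroup_iff L _).mp h1 a ha
    show σ • z = σ₀ • z
    rw [mul_smul, inv_smul_eq_iff] at h2
    exact h2

/-- the local data at a place over `q ≠ p, ℓ` -/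
noncomputable def locGoodOf (R : Raw J p ℓ) (hD : DecompGen) (KK : AddSubgroup J)
    (hKK : KK ≤ torL ℓ J) {q : ℕ} (hq : q.Prime) (hqp : q ≠ p) (hqℓ : q ≠ ℓ)
    (A : ValuationSubring Qb) (hA : A.LiesOverPrime q) : LocGood GQ J ℓ KK where
  I := (A.inertiaSubgroupIn ℚ : Set GQ)
  φ := (Lib.Frobenius.exists_isFrobeniusAt_of_liesOverPrime A hq hA).choose
  J1 := R.J1 A
  inert := fun σ hσ z => R.J1_inert q hq hqp A hA σ hσ z
  tor_free := fun x hx r hr => R.J1_tor q hq hqp hqℓ A hA x hx ⟨r, hr⟩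
  fin := by
    have hφ := (Lib.Frobenius.exists_isFrobeniusAt_of_liesOverPrime A hq hA).choose_spec
    obtain ⟨m, hm, h⟩ := R.J1_fin q hq hqp hqℓ A hA
    refine ⟨m, hm, fun z hI hz => h z ?_⟩
    intro σ hσ
    obtain ⟨L, hL, hfix⟩ := R.smooth z
    obtain ⟨k, τ, g, hτ, hg, rfl⟩ := hD q hq A hA _ hφ L hL σ hσ
    rw [mul_smul, mul_smul, hfix g hg, hI τ hτ]
    have h1 : (Lib.Frobenius.exists_isFrobeniusAt_of_liesOverPrime A hq hA).choose ∈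
        MulAction.stabilizer GQ z := hz
    exact Subgroup.pow_mem _ h1 k
  ker_fin := by
    have hφ := (Lib.Frobenius.exists_isFrobeniusAt_of_liesOverPrime A hq hA).choose_spec
    refine (R.ne q hq hqp hqℓ A hA _ hφ).subset ?_
    rintro x ⟨hx, hxφ⟩
    refine ⟨hKK hx, ?_⟩
    have h2 : (Lib.Frobenius.exists_isFrobeniusAt_of_liesOverPrime A hq hA).choose⁻¹ • x = x := by
      rw [inv_smul_eq_iff, hxφ]
    rw [hxφ, h2, add_smul, one_smul]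

theorem absDescent_of (hD : DecompGen)
    (hT : ∀ (J : Type) [AddCommGroup J] [DistribMulAction GQ J] (p ℓ : ℕ) (R : Raw J p ℓ),
      ∃ T : ArithTower GQ ℓ, TowerFor R T ∧ Nonempty (AOut R T))
    (hB : ∀ (ℓ : ℕ), ℓ.Prime → ∀ (T : ArithTower GQ ℓ) (𝔾 : Type) [AddCommGroup 𝔾]
      [DistribMulAction GQ 𝔾] (C : Clean T 𝔾), SelBound T C) : AbsDescent := by
  intro J _ _ p ℓ R
  obtain ⟨T, hTR, ⟨O⟩⟩ := hT J p ℓ R
  have hKK : O.link.KK ≤ torL ℓ J := fun x hx => (O.link.mem_KK.mp hx).1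
  have hloc : LocCond T O.clean O.link := by
    refine ⟨?_, ?_, ?_⟩
    · intro σ hσ z hz
      rw [hTR.U] at hσ
      obtain ⟨q, hq, hqp, hqℓ, A, hA, hσA⟩ := hσ
      exact R.J1_tor q hq hqp hqℓ A hA _ (R.J1_inert q hq hqp A hA σ hσA z) hz
    · obtain ⟨c, hc⟩ := O.atL
      refine ⟨c, fun σ hσ z h => hc _ ?_⟩
      rw [hTR.Il] at hσ
      exact R.J1_inert ℓ R.hℓ R.hℓp R.Aℓ R.hAℓ σ hσ z
    · obtain ⟨c, hc⟩ := O.atP
      refine ⟨c, fun σ hσ z h => hc _ ?_⟩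
      rw [hTR.Ip] at hσ
      exact R.W_inert σ hσ z h
  exact O.c_not_mem (absC R.hℓ T O.clean O.link (hB ℓ R.hℓ T O.𝔾 O.clean) hloc (raw_cont R) R.div R.fin
    (locGoodOf R hD _ hKK R.hq₀ R.hq₀p R.hq₀ℓ R.A₀ R.hA₀)
    (locGoodOf R hD _ hKK R.hℓ' R.hℓ'p R.hℓ'ℓ R.A' R.hA') R.y R.c R.y_fix R.y_mem R.yc_mem R.c_tor)

end Fermat.Agent.S15.Abs
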