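/-
S15 / ABS: `AbsDescent` from the output of ABS-A alone
(KUM, ABS-B, ABS-C, DecompGen are plugged in).
-/
import Fermat.Agent.S15.Abs.Wire
import Fermat.Agent.S15.Abs.DecompGen
import Fermat.Agent.S15.Kum.For
import Fermat.Agent.S15.Coh.CleanMain

set_option autoImplicit false

namespace Fermat.Agent.S15.Abs

/-- The abstract descent follows from ABS-A. -/
theorem absDescent_of_aOut
    (hA : ∀ (J : Type) [AddCommGroup J] [DistribMulAction GQ J] (p ℓ : ℕ) (R : Raw J p ℓ),
      Nonempty (AOut R (Kum.towerOf R))) : AbsDescent :=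
  absDescent_of decompGen
    (fun J _ _ p ℓ R => ⟨Kum.towerOf R, Kum.towerFor_towerOf R, hA J p ℓ R⟩)
    (fun _ hℓ _ _ _ _ C => Coh.Clean.main hℓ C)

end Fermat.Agent.S15.Abs
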